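import Fermat.Agent.S59.NM.H709.Factor
import Fermat.Prelude.Def_CuspForm_HeckeLocal

/-!
# S59 / cell NM, leaf ETAB (helper709): the Hecke algebra acts on the cuspidal classes

`W = Hom(Λ, O)`, `Λ` the period lattice.  The Hecke algebra `𝕋 = heckeAlgebra N 2 S` acts on `Λ` by
transposes (`S30.H709.perRho`), hence on `W`; `heckeBaseAlgebra N S O = O ⊗ 𝕋_lat` acts on `W` by
`Phi`, and the generator `1 ⊗ T_ℓ` acts as the Hecke transfer (`toCls_Phi_gen`).

* `base_induction` : `heckeBaseAlgebra N S O` is generated as an `O`-algebra by the `gen ℓ = 1 ⊗ T_ℓ`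
  (when `S` contains the primes dividing `N`).
-/

set_option autoImplicit false

noncomputable section

namespace Fermat.Agent.S59.NM.H709

open CongruenceSubgroup ModularCurve ModularCurve.Period CuspForm
open Fermat.Agent.S30.H709 Fermat.Agent.S41.Spec Fermat.Agent.S29 Fermat.Agent.S29.H642
open scoped MatrixGroups TensorProduct

variable {N : ℕ} [NeZero N] {S : Set ℕ}

/-- The transposed action of the Hecke algebra on the period lattice. -/
def rhoL (hNS : ∀ q : ℕ, q.Prime → q ∣ N → q ∈ S) :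
    heckeAlgebra N 2 S →+* Module.End ℤ (perLattice N) :=
  perRho (periodHecke_facCoh N) hNS

theorem rhoL_T_perCls (hNS : ∀ q : ℕ, q.Prime → q ∣ N → q ∈ S) {l : ℕ} (hl : l.Prime)
    (hlN : ¬ l ∣ N) (hlS : l ∉ S) (γ : Gamma0 N) :
    rhoL hNS (heckeAlgebra.T hl hlN hlS) (perCls N γ) = ((facCoh N l γ).map (perCls N)).sum :=
  perRho_perCls (periodHecke_facCoh N) hNS hl hlN hlS γ

variable (O : Type) [CommRing O]

/-- The action of a Hecke operator on `W = Hom(Λ, O)`: `u ↦ u ∘ ᵗt`. -/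
def actW (hNS : ∀ q : ℕ, q.Prime → q ∣ N → q ∈ S) (t : heckeAlgebra N 2 S) :
    Module.End O (perLattice N →+ O) where
  toFun u := u.comp (rhoL hNS t : perLattice N →ₗ[ℤ] perLattice N).toAddMonoidHom
  map_add' _ _ := rfl
  map_smul' _ _ := rfl

theorem actW_apply (hNS : ∀ q : ℕ, q.Prime → q ∣ N → q ∈ S) (t : heckeAlgebra N 2 S)
    (u : perLattice N →+ O) (x : perLattice N) : actW O hNS t u x = u (rhoL hNS t x) := rfl

/-- The action of the Hecke algebra on `W`. -/
def actHom (hNS : ∀ q : ℕ, q.Prime → q ∣ N → q ∈ S) :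
    heckeAlgebra N 2 S →+* Module.End O (perLattice N →+ O) where
  toFun := actW O hNS
  map_one' := by
    refine LinearMap.ext fun u => AddMonoidHom.ext fun x => ?_
    rw [actW_apply, map_one]
    rfl
  map_mul' t s := by
    refine LinearMap.ext fun u => AddMonoidHom.ext fun x => ?_
    rw [Module.End.mul_apply, actW_apply, actW_apply, actW_apply, mul_comm t s, map_mul]
    rfl
  map_zero' := by
    refine LinearMap.ext fun u => AddMonoidHom.ext fun x => ?_
    rw [actW_apply, map_zero]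
    simp
  map_add' t s := by
    refine LinearMap.ext fun u => AddMonoidHom.ext fun x => ?_
    rw [LinearMap.add_apply, AddMonoidHom.add_apply, actW_apply, actW_apply, actW_apply, map_add,
      LinearMap.add_apply, map_add]

theorem actHom_apply (hNS : ∀ q : ℕ, q.Prime → q ∣ N → q ∈ S) (t : heckeAlgebra N 2 S)
    (u : perLattice N →+ O) (x : perLattice N) : actHom O hNS t u x = u (rhoL hNS t x) := rfl

/-- **(F1)** `T_ℓ` acts on `W` as the Hecke transfer acts on the classes. -/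
theorem toCls_actHom_T (hNS : ∀ q : ℕ, q.Prime → q ∣ N → q ∈ S) {l : ℕ} [Fact l.Prime]
    (hlN : ¬ l ∣ N) (hlS : l ∉ S) (u : perLattice N →+ O) :
    toCls (actHom O hNS (heckeAlgebra.T Fact.out hlN hlS) u) = heckeTransfer hlN (toCls u) := by
  refine AddMonoidHom.ext fun γ => ?_
  obtain ⟨γ, rfl⟩ := Additive.ofMul.surjective γ
  have h1 := congrFun (Fermat.Agent.Ribet.H883.funOf_heckeTransfer hlN (toCls u)) γ
  rw [Fermat.Agent.Ribet.H883.funOf_apply] at h1
  rw [h1, ← sum_map_facCoh, toCls_apply, actHom_apply, rhoL_T_perCls, map_multiset_sum,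
    Multiset.map_map]
  rfl

section Base

variable [hint : Fact (HasIntegralStructure N 2)]

/-- `𝕋 ≃ 𝕋_lat`. -/
def latEquiv (N : ℕ) [NeZero N] (S : Set ℕ) [Fact (HasIntegralStructure N 2)] :
    heckeAlgebra N 2 S ≃ₐ[ℤ] heckeLatticeAlgebra N S :=
  AlgEquiv.ofBijective (latticeRestrictHom N S) (latticeRestrictHom_bijective N S Fact.out)

theorem latEquiv_apply (t : heckeAlgebra N 2 S) : latEquiv N S t = latticeRestrictHom N S t := rfl

/-- The action of `𝕋_lat` on `W`. -/
def latAct (hNS : ∀ q : ℕ, q.Prime → q ∣ N → q ∈ S) :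
    heckeLatticeAlgebra N S →ₐ[ℤ] Module.End O (perLattice N →+ O) where
  toRingHom := (actHom O hNS).comp ((latEquiv N S).symm : heckeLatticeAlgebra N S →+* _)
  commutes' n := by
    show ((actHom O hNS).comp ((latEquiv N S).symm : heckeLatticeAlgebra N S →+* _))
      (algebraMap ℤ _ n) = algebraMap ℤ _ n
    rw [Algebra.algebraMap_eq_smul_one, map_zsmul, map_one, Algebra.algebraMap_eq_smul_one]

theorem latAct_lat (hNS : ∀ q : ℕ, q.Prime → q ∣ N → q ∈ S) (t : heckeAlgebra N 2 S) :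
    latAct O hNS (latticeRestrictHom N S t) = actHom O hNS t := by
  show actHom O hNS ((latEquiv N S).symm (latEquiv N S t)) = _
  rw [AlgEquiv.symm_apply_apply]

/-- Pure tensors of `heckeBaseAlgebra N S O = O ⊗ 𝕋_lat`. -/
def tm (o : O) (t : heckeLatticeAlgebra N S) : heckeBaseAlgebra N S O :=
  (o ⊗ₜ[ℤ] t : O ⊗[ℤ] ↥(heckeLatticeAlgebra N S))

theorem tm_add (o : O) (t t' : heckeLatticeAlgebra N S) :
    tm O o (t + t') = tm O o t + tm O o t' :=
  TensorProduct.tmul_add o t t'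

theorem tm_mul (o o' : O) (t t' : heckeLatticeAlgebra N S) :
    tm O (o * o') (t * t') = tm O o t * tm O o' t' :=
  (Algebra.TensorProduct.tmul_mul_tmul o o' t t').symm

theorem tm_one_mul (t t' : heckeLatticeAlgebra N S) :
    tm O 1 (t * t') = tm O 1 t * tm O 1 t' := by
  rw [← tm_mul, one_mul]

theorem algebraMap_eq_tm (o : O) :
    algebraMap O (heckeBaseAlgebra N S O) o = tm O o (1 : heckeLatticeAlgebra N S) :=
  Algebra.TensorProduct.algebraMap_apply (R := ℤ) (A := O) (B := ↥(heckeLatticeAlgebra N S)) o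

theorem tm_eq_smul (o : O) (t : heckeLatticeAlgebra N S) : tm O o t = o • tm O 1 t := by
  have h : (o ⊗ₜ[ℤ] t : O ⊗[ℤ] ↥(heckeLatticeAlgebra N S)) = o • ((1 : O) ⊗ₜ[ℤ] t) := by
    rw [TensorProduct.smul_tmul', smul_eq_mul, mul_one]
  exact h

theorem tm_intCast (n : ℤ) :
    tm O 1 (algebraMap ℤ (heckeLatticeAlgebra N S) n) =
      algebraMap O (heckeBaseAlgebra N S O) (n : O) := by
  rw [algebraMap_eq_tm]
  have h : ((1 : O) ⊗ₜ[ℤ] (algebraMap ℤ (heckeLatticeAlgebra N S) n) :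
      O ⊗[ℤ] ↥(heckeLatticeAlgebra N S)) = ((n : O) ⊗ₜ[ℤ] (1 : heckeLatticeAlgebra N S)) := by
    rw [Algebra.algebraMap_eq_smul_one, TensorProduct.tmul_smul, TensorProduct.smul_tmul',
      zsmul_eq_mul, mul_one]
  exact h

/-- **The action of `O ⊗ 𝕋_lat` on `W = Hom(Λ, O)`.** -/
def Phi (hNS : ∀ q : ℕ, q.Prime → q ∣ N → q ∈ S) :
    heckeBaseAlgebra N S O →ₐ[O] Module.End O (perLattice N →+ O) :=
  Algebra.TensorProduct.lift (Algebra.ofId O (Module.End O (perLattice N →+ O)))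
    (latAct O hNS) (fun o _ => Algebra.commute_algebraMap_left o _)

/-- The generators `1 ⊗ T_ℓ` of `O ⊗ 𝕋_lat`. -/
def gen {l : ℕ} (hl : l.Prime) (hlN : ¬ l ∣ N) (hlS : l ∉ S) : heckeBaseAlgebra N S O :=
  tm O 1 (latticeRestrictHom N S (heckeAlgebra.T hl hlN hlS))

theorem Phi_tm (hNS : ∀ q : ℕ, q.Prime → q ∣ N → q ∈ S) (o : O)
    (t : heckeLatticeAlgebra N S) :
    Phi O hNS (tm O o t) = o • latAct O hNS t := by
  have h := Algebra.TensorProduct.lift_tmul
    (Algebra.ofId O (Module.End O (perLattice N →+ O))) (latAct O hNS)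
    (fun o _ => Algebra.commute_algebraMap_left o _) o t
  have h2 : Phi O hNS (tm O o t) = Algebra.ofId O (Module.End O (perLattice N →+ O)) o *
      latAct O hNS t := h
  rw [h2, Algebra.ofId_apply, Algebra.algebraMap_eq_smul_one, smul_mul_assoc, one_mul]

theorem Phi_gen (hNS : ∀ q : ℕ, q.Prime → q ∣ N → q ∈ S) {l : ℕ} (hl : l.Prime)
    (hlN : ¬ l ∣ N) (hlS : l ∉ S) :
    Phi O hNS (gen O hl hlN hlS) = actHom O hNS (heckeAlgebra.T hl hlN hlS) := by
  unfold gen
  rw [Phi_tm, one_smul, latAct_lat]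

/-- **(F1)** for `Phi`. -/
theorem toCls_Phi_gen (hNS : ∀ q : ℕ, q.Prime → q ∣ N → q ∈ S) {l : ℕ} [Fact l.Prime]
    (hlN : ¬ l ∣ N) (hlS : l ∉ S) (u : perLattice N →+ O) :
    toCls (Phi O hNS (gen O Fact.out hlN hlS) u) = heckeTransfer hlN (toCls u) := by
  rw [Phi_gen]
  exact toCls_actHom_T O hNS hlN hlS u

theorem Phi_add_apply (hNS : ∀ q : ℕ, q.Prime → q ∣ N → q ∈ S) (α β : heckeBaseAlgebra N S O)
    (u : perLattice N →+ O) : Phi O hNS (α + β) u = Phi O hNS α u + Phi O hNS β u := by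
  have h : Phi O hNS (α + β) = Phi O hNS α + Phi O hNS β := map_add (Phi O hNS) α β
  rw [h, LinearMap.add_apply]

theorem Phi_mul_apply (hNS : ∀ q : ℕ, q.Prime → q ∣ N → q ∈ S) (α β : heckeBaseAlgebra N S O)
    (u : perLattice N →+ O) : Phi O hNS (α * β) u = Phi O hNS α (Phi O hNS β u) := by
  have h : Phi O hNS (α * β) = Phi O hNS α * Phi O hNS β := map_mul (Phi O hNS) α β
  rw [h, Module.End.mul_apply]

theorem Phi_algebraMap_apply (hNS : ∀ q : ℕ, q.Prime → q ∣ N → q ∈ S) (o : O)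
    (u : perLattice N →+ O) :
    Phi O hNS (algebraMap O (heckeBaseAlgebra N S O) o) u = o • u := by
  have h : Phi O hNS (algebraMap O (heckeBaseAlgebra N S O) o) =
      algebraMap O (Module.End O (perLattice N →+ O)) o := AlgHom.commutes (Phi O hNS) o
  rw [h, Module.algebraMap_end_apply]

theorem Phi_smul (hNS : ∀ q : ℕ, q.Prime → q ∣ N → q ∈ S) (α : heckeBaseAlgebra N S O) (c : O)
    (u : perLattice N →+ O) : Phi O hNS α (c • u) = c • Phi O hNS α u :=
  map_smul (Phi O hNS α) c u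

/-- The set of generators. -/
def genSet (N : ℕ) [NeZero N] (S : Set ℕ) (O : Type) [CommRing O]
    [Fact (HasIntegralStructure N 2)] : Set (heckeBaseAlgebra N S O) :=
  {α | ∃ (l : ℕ) (hl : l.Prime) (hlN : ¬ l ∣ N) (hlS : l ∉ S), α = gen O hl hlN hlS}

/-- `1 ⊗ t` lies in the `O`-subalgebra generated by the `gen ℓ`. -/
theorem one_tm_mem_adjoin (hNS : ∀ q : ℕ, q.Prime → q ∣ N → q ∈ S)
    (t : Module.End ℂ (CuspForm (Gamma0 N) 2)) (ht : t ∈ heckeAlgebra N 2 S) :
    tm O 1 (latticeRestrictHom N S ⟨t, ht⟩) ∈ Algebra.adjoin O (genSet N S O) := by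
  induction ht using Algebra.adjoin_induction with
  | mem t ht =>
    rcases ht with ⟨l, hl, hlN, hlS, rfl⟩ | ⟨q, hqN, hq, hqS, rfl⟩
    · exact Algebra.subset_adjoin ⟨l, hl, hlN, hlS, rfl⟩
    · exact absurd (hNS q hq hqN) hqS
  | algebraMap n =>
    have h1 : (⟨algebraMap ℤ (Module.End ℂ (CuspForm (Gamma0 N) 2)) n,
        Subalgebra.algebraMap_mem _ n⟩ : heckeAlgebra N 2 S) = algebraMap ℤ _ n := rfl
    rw [h1, AlgHom.commutes, tm_intCast]
    exact Subalgebra.algebraMap_mem _ _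
  | add t s ht hs iht ihs =>
    have h1 : (⟨t + s, Subalgebra.add_mem _ ht hs⟩ : heckeAlgebra N 2 S) = ⟨t, ht⟩ + ⟨s, hs⟩ := rfl
    rw [h1, map_add, tm_add]
    exact Subalgebra.add_mem _ iht ihs
  | mul t s ht hs iht ihs =>
    have h1 : (⟨t * s, Subalgebra.mul_mem _ ht hs⟩ : heckeAlgebra N 2 S) = ⟨t, ht⟩ * ⟨s, hs⟩ := rfl
    rw [h1, map_mul, tm_one_mul]
    exact Subalgebra.mul_mem _ iht ihs

/-- The identity `O ⊗ 𝕋_lat → heckeBaseAlgebra N S O` (to fix the type). -/
def ofT (α : O ⊗[ℤ] ↥(heckeLatticeAlgebra N S)) : heckeBaseAlgebra N S O := α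

theorem mem_adjoin_genSet (hNS : ∀ q : ℕ, q.Prime → q ∣ N → q ∈ S)
    (α : heckeBaseAlgebra N S O) : α ∈ Algebra.adjoin O (genSet N S O) := by
  have key : ∀ α : O ⊗[ℤ] ↥(heckeLatticeAlgebra N S),
      ofT O α ∈ Algebra.adjoin O (genSet N S O) := by
    intro α
    induction α using TensorProduct.induction_on with
    | zero => exact Subalgebra.zero_mem _
    | tmul o t =>
      obtain ⟨t', rfl⟩ := latticeRestrictHom_surjective N S t
      have h1 : tm O o (latticeRestrictHom N S t') ∈ Algebra.adjoin O (genSet N S O) := by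
        rw [tm_eq_smul]
        exact Subalgebra.smul_mem _ (one_tm_mem_adjoin O hNS t'.1 t'.2) o
      exact h1
    | add x y hx hy =>
      have h2 : ofT O x + ofT O y ∈ Algebra.adjoin O (genSet N S O) := Subalgebra.add_mem _ hx hy
      exact h2
  exact key α

/-- **Generation**: an induction principle for `heckeBaseAlgebra N S O` (`S` contains the primes
dividing `N`). -/
theorem base_induction (hNS : ∀ q : ℕ, q.Prime → q ∣ N → q ∈ S)
    {P : heckeBaseAlgebra N S O → Prop}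
    (hgen : ∀ (l : ℕ) (hl : l.Prime) (hlN : ¬ l ∣ N) (hlS : l ∉ S), P (gen O hl hlN hlS))
    (halg : ∀ o : O, P (algebraMap O (heckeBaseAlgebra N S O) o))
    (hadd : ∀ α β, P α → P β → P (α + β))
    (hmul : ∀ α β, P α → P β → P (α * β)) (α : heckeBaseAlgebra N S O) : P α := by
  have h := mem_adjoin_genSet O hNS α
  induction h using Algebra.adjoin_induction with
  | mem x hx =>
    obtain ⟨l, hl, hlN, hlS, rfl⟩ := hx
    exact hgen l hl hlN hlS
  | algebraMap o => exact halg o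
  | add x y _ _ hx hy => exact hadd x y hx hy
  | mul x y _ _ hx hy => exact hmul x y hx hy

end Base

end Fermat.Agent.S59.NM.H709
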