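import Mathlib
import Fermat.Agent.S59.NC.Defs

/-!
# S59 / cell NM, leaf ETAB (helper709): lifting `Ann(ker π)` from a localization

`T` a localization of a Noetherian ring `A` at a submonoid `M`, `π : T → O` an augmentation,
`e ∈ Ann_T(ker π)`.  Then there is `e₁ ∈ A` with `π(e₁) = c · π(e)`, `c` a unit of `O`, and
`k · e₁ = 0` for every `k ∈ A` with `π(k) = 0`.  (No idempotents needed.)
-/

set_option autoImplicit false

namespace Fermat.Agent.S59.NM.H709

open Fermat.Agent.S59

theorem exists_lift_annAug {O A T : Type*} [CommRing O] [CommRing A] [Algebra O A] [CommRing T]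
    [Algebra O T] [Algebra A T] (M : Submonoid A) [IsLocalization M T]
    [IsNoetherianRing A] (π : T →ₐ[O] O) (e : T) (he : e ∈ NC.annAug π) :
    ∃ (e1 : A) (c : O), IsUnit c ∧ π (algebraMap A T e1) = c * π e ∧
      ∀ k : A, π (algebraMap A T k) = 0 → k * e1 = 0 := by
  classical
  obtain ⟨⟨e0, s⟩, hes⟩ := IsLocalization.surj M e
  simp only at hes
  let πA : A →+* O := (π : T →+* O).comp (algebraMap A T)
  let I : Ideal A := RingHom.ker πA
  have hI : ∀ k : A, k ∈ I ↔ π (algebraMap A T k) = 0 := fun k => RingHom.mem_ker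
  obtain ⟨gens, hgens⟩ : I.FG := IsNoetherian.noetherian I
  have h1 : ∀ k : A, k ∈ I → ∃ m : M, (m : A) * (k * e0) = 0 := by
    intro k hk
    apply (IsLocalization.map_eq_zero_iff M T _).mp
    have h0 : e * algebraMap A T k = 0 :=
      NC.mem_annAug.mp he _ (NC.mem_augIdeal.mpr ((hI k).mp hk))
    rw [map_mul, ← hes, ← mul_assoc, mul_comm (algebraMap A T k) e, h0, zero_mul]
  choose! f hf using h1
  set s' : A := ∏ k ∈ gens, ((f k : M) : A) with hs'
  have hs'M : s' ∈ M := by
    rw [hs']
    exact Submonoid.prod_mem M fun k _ => (f k).2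
  have h2 : ∀ k : A, k ∈ I → s' * (k * e0) = 0 := by
    intro k hk
    rw [← hgens] at hk
    induction hk using Submodule.span_induction with
    | mem k hk =>
      have hkI : k ∈ I := by
        rw [← hgens]
        exact Submodule.subset_span hk
      obtain ⟨c, hc⟩ := Finset.dvd_prod_of_mem (fun k => ((f k : M) : A)) (Finset.mem_coe.mp hk)
      rw [hs', hc, mul_comm ((f k : M) : A) c, mul_assoc, hf k hkI, mul_zero]
    | zero => rw [zero_mul, mul_zero]
    | add x y _ _ hx hy => rw [add_mul, mul_add, hx, hy, add_zero]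
    | smul a x _ hx =>
      rw [smul_eq_mul, mul_assoc, mul_left_comm, hx, mul_zero]
  refine ⟨s' * e0, π (algebraMap A T s') * π (algebraMap A T s), ?_, ?_, ?_⟩
  · exact ((IsLocalization.map_units T ⟨s', hs'M⟩).map π).mul ((IsLocalization.map_units T s).map π)
  · rw [map_mul, map_mul, ← hes, map_mul]
    ring
  · intro k hk
    rw [mul_left_comm]
    exact h2 k ((hI k).mpr hk)

end Fermat.Agent.S59.NM.H709
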