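import Fermat.Agent.S59.NM.Spec
import Fermat.Agent.S59.NM.H709.Action
import Fermat.Agent.S59.NM.H709.LocLift
import Fermat.Agent.S59.H585.Adj2
import Fermat.Agent.S59.H585.Perf

/-!
# S59 / cell NM, leaf ETAB (helper709): `BettiBound N S a J ⇒ η_T(π) ⊆ J`

`theorem etaOfBound : NM.EtaOfBoundStatement` (VERBATIM, unconditional).

Proof.  `A = heckeBaseAlgebra N S O = O ⊗ 𝕋_lat` acts on `W = Hom(Λ, O)` (`Λ` = period lattice) by
`Phi`; `W ≃ C_N(O)` (cuspidal classes) by `toCls`/`ofCls` (Eichler–Shimura), and `1 ⊗ T_ℓ` acts as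
the Hecke transfer.  `T = heckeLocal` is a localization of `A`; for `e ∈ Ann_T(ker π)` take
`e₁ ∈ A` with `π(e₁) = c π(e)`, `c ∈ O^×`, `ker(π_A) · e₁ = 0` (`exists_lift_annAug`).
`x` the primitive eigenclass of the Betti bound, `m` cuspidal with `B(x, m) = 1`
(`H585.perf_charZero`).  Then `e₁ m` is an eigenclass and
`π(e₁) = B(π(e₁) x, m) = B(e₁ x, m) = B(x, e₁ m) ∈ J` (self-adjointness: `H585.adj2`).
-/

set_option autoImplicit false

noncomputable section

namespace Fermat.Agent.S59.NM.H709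

open CongruenceSubgroup ModularCurve ModularCurve.Period CuspForm IsLocalRing
open Fermat.Agent.S30.H709 Fermat.Agent.S41.Spec Fermat.Agent.S29 Fermat.Agent.S29.H642
open Fermat.Agent.S59 Fermat.Agent.S59.NM
open scoped MatrixGroups TensorProduct

section Core

variable {N : ℕ} [NeZero N] {S : Set ℕ} [hint : Fact (HasIntegralStructure N 2)]
  (O : Type) [CommRing O] [IsDomain O] [CharZero O]
  (hNS : ∀ q : ℕ, q.Prime → q ∣ N → q ∈ S)

/-- The Manin pairing on `W = Hom(Λ, O)`. -/
def pairW (u v : perLattice N →+ O) : O := maninPairing (Gamma0 N) (toCls u) (toCls v)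

omit hint in
theorem pairW_add_left (u u' v : perLattice N →+ O) :
    pairW O (u + u') v = pairW O u v + pairW O u' v := by
  have := Fermat.Agent.S59.H585.finiteIndex_Gamma0' (NeZero.ne N)
  exact Fermat.Agent.S59.H585.maninPairing_add_left (Fermat.Agent.S59.H585.neg_one_mem_Gamma0' N)
    (isCuspidal_toCls u) (isCuspidal_toCls u') (isCuspidal_toCls v)

omit hint in
theorem pairW_add_right (u v v' : perLattice N →+ O) :
    pairW O u (v + v') = pairW O u v + pairW O u v' := by
  have := Fermat.Agent.S59.H585.finiteIndex_Gamma0' (NeZero.ne N)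
  exact Fermat.Agent.S59.H585.maninPairing_add_right (Fermat.Agent.S59.H585.neg_one_mem_Gamma0' N)
    (isCuspidal_toCls u) (isCuspidal_toCls v) (isCuspidal_toCls v')

omit hint in
theorem pairW_smul_left (c : O) (u v : perLattice N →+ O) :
    pairW O (c • u) v = c * pairW O u v := by
  have := Fermat.Agent.S59.H585.finiteIndex_Gamma0' (NeZero.ne N)
  exact Fermat.Agent.S59.H585.maninPairing_smul_left (Fermat.Agent.S59.H585.neg_one_mem_Gamma0' N)
    c (isCuspidal_toCls u) (isCuspidal_toCls v)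

omit hint in
theorem pairW_smul_right (c : O) (u v : perLattice N →+ O) :
    pairW O u (c • v) = c * pairW O u v := by
  have := Fermat.Agent.S59.H585.finiteIndex_Gamma0' (NeZero.ne N)
  exact Fermat.Agent.S59.H585.maninPairing_smul_right (Fermat.Agent.S59.H585.neg_one_mem_Gamma0' N)
    c (isCuspidal_toCls u) (isCuspidal_toCls v)

set_option maxHeartbeats 1000000 in
/-- **(F3)** the action of `A` on `W` is self-adjoint for the Manin pairing. -/
theorem pairW_Phi (α : heckeBaseAlgebra N S O) :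
    ∀ u v : perLattice N →+ O, pairW O (Phi O hNS α u) v = pairW O u (Phi O hNS α v) := by
  induction α using base_induction O hNS with
  | hgen l hl hlN hlS =>
    intro u v
    have : Fact l.Prime := ⟨hl⟩
    unfold pairW
    rw [toCls_Phi_gen O hNS hlN hlS u, toCls_Phi_gen O hNS hlN hlS v]
    exact (Fermat.Agent.S59.H585.adj2 O N 2 (NeZero.ne N) Nat.prime_two).2 l hlN (toCls u)
      (toCls v) (isCuspidal_toCls u) (isCuspidal_toCls v)
  | halg o =>
    intro u v
    rw [Phi_algebraMap_apply O hNS o u, Phi_algebraMap_apply O hNS o v, pairW_smul_left,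
      pairW_smul_right]
  | hadd α β hα hβ =>
    intro u v
    rw [Phi_add_apply O hNS α β u, Phi_add_apply O hNS α β v, pairW_add_left, pairW_add_right,
      hα u v, hβ u v]
  | hmul α β hα hβ =>
    intro u v
    have h1 := Phi_mul_apply O hNS α β u
    have h2 := Phi_mul_apply O hNS β α v
    have h3 : α * β = β * α := mul_comm α β
    rw [h1, hα, hβ, ← h2, ← h3]

end Core

section Main

variable {N : ℕ} [NeZero N] [hint : Fact (HasIntegralStructure N 2)]
  {O : Type} [CommRing O] [IsDomain O] [IsDiscreteValuationRing O] [CharZero O]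

/-- `heckeBaseAlgebra` is Noetherian. -/
theorem isNoetherianRing_base (N : ℕ) [NeZero N] (S : Set ℕ) (O : Type) [CommRing O]
    [IsNoetherianRing O] : IsNoetherianRing (heckeBaseAlgebra N S O) := by
  have : Module.Finite O (heckeBaseAlgebra N S O) :=
    inferInstanceAs (Module.Finite O (O ⊗[ℤ] ↥(heckeLatticeAlgebra N S)))
  exact IsNoetherianRing.of_finite O (heckeBaseAlgebra N S O)

/-- `heckeLocal.π` in terms of the generators. -/
theorem heckeLocal_π_T {S : Set ℕ} (θ : heckeAlgebra N 2 S →+* ResidueField O) {l : ℕ}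
    (hl : l.Prime) (hlN : ¬ l ∣ N) (hlS : l ∉ S) :
    heckeLocal.π N S O θ (heckeAlgebra.T hl hlN hlS) =
      algebraMap (heckeBaseAlgebra N S O) (heckeLocal N S O θ) (gen O hl hlN hlS) := rfl

set_option maxHeartbeats 2000000 in
/-- **ETA-OF-BOUND**, core form (`S` a set). -/
theorem etaOfBound_core {S : Set ℕ} (hNS : ∀ q : ℕ, q.Prime → q ∣ N → q ∈ S)
    (θ : heckeAlgebra N 2 S →+* ResidueField O)
    (π : heckeLocal N S O θ →ₐ[O] O) (a : ℕ → O)
    (hπ : ∀ (l : ℕ) (hl : l.Prime) (hlN : ¬ l ∣ N) (hlS : l ∉ S),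
      π (heckeLocal.π N S O θ (heckeAlgebra.T hl hlN hlS)) = a l)
    (J : Ideal O) (x : Additive (Gamma0 N) →+ O) (hxc : IsCuspidal x)
    (hxe : ∀ (l : ℕ) [Fact l.Prime] (hl : ¬ l ∣ N), l ∉ S → heckeTransfer hl x = a l • x)
    (hxp : IsPrim x)
    (hxJ : ∀ y : Additive (Gamma0 N) →+ O, IsCuspidal y →
      (∀ (l : ℕ) [Fact l.Prime] (hl : ¬ l ∣ N), l ∉ S → heckeTransfer hl y = a l • y) →
      maninPairing (Gamma0 N) x y ∈ J) :
    NC.congIdeal π ≤ J := by
  intro c hc
  obtain ⟨e, he, rfl⟩ := NC.mem_congIdeal.mp hc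
  have := isNoetherianRing_base N S O
  obtain ⟨e1, c, hcu, hπe1, hker⟩ :=
    exists_lift_annAug (A := heckeBaseAlgebra N S O) (heckeLocalSubmonoid N S O θ) π e he
  -- the augmentation of `A`
  set πA : heckeBaseAlgebra N S O → O :=
    fun α => π (algebraMap (heckeBaseAlgebra N S O) (heckeLocal N S O θ) α) with hπA
  have hπA_gen : ∀ (l : ℕ) (hl : l.Prime) (hlN : ¬ l ∣ N) (hlS : l ∉ S),
      πA (gen O hl hlN hlS) = a l := fun l hl hlN hlS => hπ l hl hlN hlS
  have hπA_alg : ∀ o : O, πA (algebraMap O (heckeBaseAlgebra N S O) o) = o := by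
    intro o
    show π (algebraMap (heckeBaseAlgebra N S O) (heckeLocal N S O θ)
      (algebraMap O (heckeBaseAlgebra N S O) o)) = o
    rw [← IsScalarTower.algebraMap_apply, AlgHom.commutes]
    rfl
  have hπA_add : ∀ α β : heckeBaseAlgebra N S O, πA (α + β) = πA α + πA β := by
    intro α β
    show π (algebraMap (heckeBaseAlgebra N S O) (heckeLocal N S O θ) (α + β)) = _
    rw [map_add, map_add]
  have hπA_mul : ∀ α β : heckeBaseAlgebra N S O, πA (α * β) = πA α * πA β := by
    intro α β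
    show π (algebraMap (heckeBaseAlgebra N S O) (heckeLocal N S O θ) (α * β)) = _
    rw [map_mul, map_mul]
  -- the eigenclass `x` on `W`
  set ux : perLattice N →+ O := ofCls x hxc.1 with hux
  have hux_cls : toCls ux = x := toCls_ofCls x hxc.1
  -- (F2) `x` is an eigenvector of `A` with character `π_A`
  have hF2 : ∀ α : heckeBaseAlgebra N S O, Phi O hNS α ux = πA α • ux := by
    intro α
    induction α using base_induction O hNS with
    | hgen l hl hlN hlS =>
      have : Fact l.Prime := ⟨hl⟩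
      apply toCls_injective
      rw [toCls_Phi_gen O hNS hlN hlS ux, toCls_smul, hux_cls, hxe l hlN hlS, hπA_gen]
    | halg o => rw [Phi_algebraMap_apply O hNS o ux, hπA_alg]
    | hadd α β hα hβ =>
      rw [Phi_add_apply O hNS α β ux, hα, hβ, ← add_smul, hπA_add]
    | hmul α β hα hβ =>
      rw [Phi_mul_apply O hNS α β ux, hβ, Phi_smul O hNS α (πA β) ux, hα, smul_smul, hπA_mul,
        mul_comm]
  -- perfectness
  obtain ⟨m, hmc, hm1⟩ := Fermat.Agent.S59.H585.perf_charZero O N (NeZero.ne N) x hxc hxp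
  set um : perLattice N →+ O := ofCls m hmc.1 with hum
  have hum_cls : toCls um = m := toCls_ofCls m hmc.1
  -- `e₁ m` is an eigenclass
  have hy_eig : ∀ (l : ℕ) [Fact l.Prime] (hl : ¬ l ∣ N), l ∉ S →
      heckeTransfer hl (toCls (Phi O hNS e1 um)) = a l • toCls (Phi O hNS e1 um) := by
    intro l _ hlN hlS
    have hl : l.Prime := Fact.out
    have h0 : (gen O hl hlN hlS - algebraMap O (heckeBaseAlgebra N S O) (a l)) * e1 = 0 := by
      apply hker
      have h1 : π (algebraMap (heckeBaseAlgebra N S O) (heckeLocal N S O θ)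
          (gen O hl hlN hlS)) = a l := hπA_gen l hl hlN hlS
      have h2 : π (algebraMap (heckeBaseAlgebra N S O) (heckeLocal N S O θ)
          (algebraMap O (heckeBaseAlgebra N S O) (a l))) = a l := hπA_alg (a l)
      rw [map_sub, map_sub, h1, h2, sub_self]
    have h3 : gen O hl hlN hlS * e1 = algebraMap O (heckeBaseAlgebra N S O) (a l) * e1 := by
      rw [sub_mul] at h0
      exact sub_eq_zero.mp h0
    have h4 := toCls_Phi_gen O hNS hlN hlS (Phi O hNS e1 um)
    have h5 := Phi_mul_apply O hNS (gen O hl hlN hlS) e1 um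
    have h6 := Phi_mul_apply O hNS (algebraMap O (heckeBaseAlgebra N S O) (a l)) e1 um
    have h7 := Phi_algebraMap_apply O hNS (a l) (Phi O hNS e1 um)
    rw [← h4, ← h5, h3, h6, h7, toCls_smul]
  have hJ := hxJ (toCls (Phi O hNS e1 um)) (isCuspidal_toCls _) hy_eig
  -- the computation
  have hcomp : maninPairing (Gamma0 N) x (toCls (Phi O hNS e1 um)) = πA e1 := by
    have h1 : pairW O ux (Phi O hNS e1 um) = pairW O (Phi O hNS e1 ux) um :=
      (pairW_Phi O hNS e1 ux um).symm
    have h2 : pairW O (Phi O hNS e1 ux) um = πA e1 * pairW O ux um := by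
      rw [hF2 e1, pairW_smul_left]
    have h3 : pairW O ux um = 1 := by
      unfold pairW
      rw [hux_cls, hum_cls, hm1]
    have h4 : pairW O ux (Phi O hNS e1 um) =
        maninPairing (Gamma0 N) x (toCls (Phi O hNS e1 um)) := by
      unfold pairW
      rw [hux_cls]
    rw [← h4, h1, h2, h3, mul_one]
  rw [hcomp] at hJ
  have hJ' : c * π e ∈ J := by
    rw [← hπe1]
    exact hJ
  obtain ⟨cu, rfl⟩ := hcu
  have := J.mul_mem_left (↑cu⁻¹ : O) hJ'
  rwa [← mul_assoc, Units.inv_mul, one_mul] at this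

end Main

/-- **ETA-OF-BOUND** (`NM.EtaOfBoundStatement`, verbatim). -/
theorem etaOfBound : EtaOfBoundStatement := by
  intro p _ O _ _ _ _ _ _ _hpO N _ _ S hNS θ π a hπ J hB
  obtain ⟨x, ⟨hxc, hxe⟩, hxp, hxJ⟩ := hB
  have hNS' : ∀ q : ℕ, q.Prime → q ∣ N → q ∈ (↑S : Set ℕ) :=
    fun q hq hqN => Finset.mem_coe.mpr (hNS q hq hqN)
  refine etaOfBound_core hNS' θ π a hπ J x hxc
    (fun l _ hl hlS => hxe l hl fun h => hlS (Finset.mem_coe.mpr h)) hxp ?_
  intro y hyc hye
  exact hxJ y ⟨hyc, fun l _ hl hlS => hye l hl fun h => hlS (Finset.mem_coe.mp h)⟩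

end Fermat.Agent.S59.NM.H709
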