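import Fermat.Agent.S30.H709.ParEigen
import Fermat.Agent.S21.Glue
import Fermat.Agent.S41.Spec.HK
import Fermat.Agent.Ribet.H883.Bridge

/-!
# S59 / cell NM, leaf ETAB (helper709): cuspidal classes factor through the period lattice

`Λ = S30.H709.perLattice N` is the lattice of period functionals `λ_γ` on `S₂(Γ₀(N))`,
`perClsHom N : Γ₀(N) → Λ` the (surjective) class map.

* `real_eq_zero_of_perCls_eq_zero` : a real parabolic character vanishes on the kernel of the class
  map (Eichler–Shimura, `S21.exists_re_periodMap_eq`);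
* `eq_zero_of_perCls_eq_zero` : the same for parabolic characters with values in a domain of
  characteristic `0` (separation by a `ℚ`-linear functional on the fraction field);
* `ofCls x hx : Λ →+ O` with `toCls (ofCls x hx) = x` for a cuspidal class `x`;
  `toCls u = u ∘ perClsHom` is cuspidal and `toCls` is injective;
* `toCls_comp_perRho` : the transposed action of `T_ℓ` on `Λ` induces the Hecke transfer.
-/

set_option autoImplicit false

noncomputable section

namespace Fermat.Agent.S59.NM.H709

open CongruenceSubgroup ModularCurve ModularCurve.Period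
open Fermat.Agent.S30.H709 Fermat.Agent.S41.Spec Fermat.Agent.S29
open scoped MatrixGroups

variable {N : ℕ} [NeZero N]

/-- The class map `γ ↦ λ_γ` as an additive homomorphism. -/
def perClsHom (N : ℕ) [NeZero N] : Additive (Gamma0 N) →+ perLattice N where
  toFun γ := perCls N (Additive.toMul γ)
  map_zero' := perCls_one
  map_add' γ δ := perCls_mul (Additive.toMul γ) (Additive.toMul δ)

@[simp] theorem perClsHom_apply (γ : Gamma0 N) :
    perClsHom N (Additive.ofMul γ) = perCls N γ := rfl

theorem perClsHom_surjective : Function.Surjective (perClsHom N) := by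
  intro x
  induction x using perCls_induction with
  | h0 => exact ⟨0, map_zero _⟩
  | hadd x y hx hy =>
    obtain ⟨a, rfl⟩ := hx
    obtain ⟨b, rfl⟩ := hy
    exact ⟨a + b, map_add _ _ _⟩
  | hneg x hx =>
    obtain ⟨a, rfl⟩ := hx
    exact ⟨-a, map_neg _ _⟩
  | hcls γ => exact ⟨Additive.ofMul γ, rfl⟩

/-- **Eichler–Shimura**: a real parabolic character kills the kernel of the class map. -/
theorem real_eq_zero_of_perCls_eq_zero (φ : Additive (Gamma0 N) →+ ℝ)
    (hφ : IsParabolicHom (Gamma0 N) φ) {γ : Gamma0 N} (hγ : perCls N γ = 0) :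
    φ (Additive.ofMul γ) = 0 := by
  obtain ⟨f, hf⟩ := Fermat.Agent.S21.exists_re_periodMap_eq φ hφ
  rw [← hf γ, ← perFun_apply N γ f]
  have h0 : perFun N γ = 0 := congrArg Subtype.val hγ
  rw [h0]
  rfl

/-- A parabolic character with values in a `ℚ`-vector space kills the kernel of the class map. -/
theorem rat_eq_zero_of_perCls_eq_zero {V : Type*} [AddCommGroup V] [Module ℚ V]
    (φ : Additive (Gamma0 N) →+ V)
    (hφ : IsParabolicHom (Gamma0 N) φ) {γ : Gamma0 N} (hγ : perCls N γ = 0) :
    φ (Additive.ofMul γ) = 0 := by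
  by_contra hne
  obtain ⟨g, hg⟩ := Module.Projective.exists_dual_ne_zero ℚ hne
  let ψ : Additive (Gamma0 N) →+ ℝ :=
    (((Rat.castHom ℝ).toAddMonoidHom).comp (g : V →+ ℚ)).comp φ
  have hψ : IsParabolicHom (Gamma0 N) ψ := by
    intro δ hδ
    show ((g (φ (Additive.ofMul δ)) : ℚ) : ℝ) = 0
    rw [hφ δ hδ, map_zero, Rat.cast_zero]
  have h := real_eq_zero_of_perCls_eq_zero ψ hψ hγ
  have h' : ((g (φ (Additive.ofMul γ)) : ℚ) : ℝ) = 0 := h
  exact hg (by exact_mod_cast h')

/-- A parabolic character with values in a domain of characteristic `0` kills the kernel of the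
class map. -/
theorem eq_zero_of_perCls_eq_zero {O : Type*} [CommRing O] [IsDomain O] [CharZero O]
    (x : Additive (Gamma0 N) →+ O)
    (hx : IsParabolicHom (Gamma0 N) x) {γ : Gamma0 N} (hγ : perCls N γ = 0) :
    x (Additive.ofMul γ) = 0 := by
  have : CharZero (FractionRing O) :=
    charZero_of_injective_algebraMap (IsFractionRing.injective O (FractionRing O))
  let ι : O →+ FractionRing O := (algebraMap O (FractionRing O)).toAddMonoidHom
  have hι : IsParabolicHom (Gamma0 N) (ι.comp x) := by
    intro δ hδ
    show algebraMap O (FractionRing O) (x (Additive.ofMul δ)) = 0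
    rw [hx δ hδ, map_zero]
  have h := rat_eq_zero_of_perCls_eq_zero (ι.comp x) hι hγ
  have h' : algebraMap O (FractionRing O) (x (Additive.ofMul γ)) = 0 := h
  exact (IsFractionRing.injective O (FractionRing O)) (h'.trans (map_zero _).symm)

section Cls

variable {O : Type*} [CommRing O]

/-- The character of `Γ₀(N)` attached to a functional on the period lattice. -/
def toCls (u : perLattice N →+ O) : Additive (Gamma0 N) →+ O := u.comp (perClsHom N)

@[simp] theorem toCls_apply (u : perLattice N →+ O) (γ : Gamma0 N) :
    toCls u (Additive.ofMul γ) = u (perCls N γ) := rfl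

theorem toCls_add (u v : perLattice N →+ O) : toCls (u + v) = toCls u + toCls v := rfl

theorem toCls_smul (c : O) (u : perLattice N →+ O) : toCls (c • u) = c • toCls u := rfl

theorem toCls_zero : toCls (0 : perLattice N →+ O) = 0 := rfl

theorem toCls_injective : Function.Injective (toCls : (perLattice N →+ O) → _) := by
  intro u v h
  refine AddMonoidHom.ext fun x => ?_
  obtain ⟨γ, rfl⟩ := perClsHom_surjective x
  exact DFunLike.congr_fun h γ

theorem isCuspidal_toCls [IsDomain O] [CharZero O] (u : perLattice N →+ O) :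
    IsCuspidal (toCls u) := by
  refine ⟨fun γ hγ => ?_, fun γ hγ => ?_⟩
  · rw [toCls_apply, perCls_eq_zero_of_trace γ hγ, map_zero]
  · obtain ⟨n, hn, hpow⟩ := isOfFinOrder_iff_pow_eq_one.mp hγ
    rw [toCls_apply, perCls_eq_zero_of_pow hn hpow, map_zero]

variable [IsDomain O] [CharZero O]

/-- The functional on the period lattice attached to a parabolic character. -/
def ofCls (x : Additive (Gamma0 N) →+ O) (hx : IsParabolicHom (Gamma0 N) x) :
    perLattice N →+ O :=
  (perClsHom N).liftOfRightInverse (Function.surjInv perClsHom_surjective)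
    (Function.rightInverse_surjInv perClsHom_surjective)
    ⟨x, fun γ hγ => by
      obtain ⟨γ, rfl⟩ := Additive.ofMul.surjective γ
      rw [AddMonoidHom.mem_ker] at hγ ⊢
      exact eq_zero_of_perCls_eq_zero x hx hγ⟩

theorem toCls_ofCls (x : Additive (Gamma0 N) →+ O) (hx : IsParabolicHom (Gamma0 N) x) :
    toCls (ofCls x hx) = x := by
  unfold toCls ofCls
  exact AddMonoidHom.liftOfRightInverse_comp _ _ _ _

theorem ofCls_toCls (u : perLattice N →+ O) (h : IsParabolicHom (Gamma0 N) (toCls u)) :
    ofCls (toCls u) h = u :=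
  toCls_injective (toCls_ofCls _ h)

end Cls

end Fermat.Agent.S59.NM.H709
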